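import Mathlib
import Fermat.Agent.LT.T6.Spec

/-!
# Row LT, tower T6, leaf T6.15 `FLVanishC` (owner helper159) -- split into sub-leaves + proved top

`FLVanishC` ([L] §5): for `k'/k` unramified of prime degree `l` and `f = b(φ)`, the orbital
integrals of `f` vanish at the regular `γ ∈ GL₂(k)` which are not norms.

Sub-leaves (all TRUE statements; proofs in the sibling files or by the named owners):

* `SupportC` (T6.15a): `f = b(φ)` is supported on the Cartan types `(a, b)` with `l ∣ a + b`
  (homogeneity of the Satake polynomials + their linear independence in each degree).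
* `HypVanishC` (T6.15b): `γ` regular with an eigenvalue `t ∈ k`, `l ∤ ord t`  ⟹  `O_γ(f) = 0`
  (hyperbolic orbital integral = `|1 - t₂/t₁|⁻¹ ×` constant term; the constant term of `b(φ)` at
  `(m₁, m₂)` vanishes unless `l ∣ m₁, m₂`).  No `k'` in the statement.
* `NormCritC` (T6.15c): `γ` regular, `l ∣ ord (det γ)`, every eigenvalue of `γ` in `k` has order
  divisible by `l`  ⟹  `γ` is a norm (unit norm surjectivity in unramified extensions, for `k'/k`
  and for `k'[γ]/k[γ]`).

`flVanish_of : SupportC → HypVanishC → NormCritC → FLVanishC` is proved below.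
-/

set_option autoImplicit false

open scoped Matrix

noncomputable section

namespace Fermat.Agent.LT.T6.H159

open Fermat.Agent.LT.T6

/-- **T6.15a.**  The base change of a spherical function is supported on `l ∣ a + b`. -/
def SupportC : Prop :=
  ∀ (l q : ℕ), 0 < l → 1 < q → ∀ φ f : (ℤ × ℤ) →₀ ℂ, IsDominant φ → IsDominant f →
    IsBC l q φ f → ∀ lam ∈ f.support, (l : ℤ) ∣ lam.1 + lam.2

/-- **T6.15b.**  Vanishing of the hyperbolic orbital integrals of `f = b(φ)` at the `γ` with an
eigenvalue in `k` whose order is not divisible by `l`. -/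
def HypVanishC : Prop :=
  ∀ (k : Type) [Field k] [Valued k Γ₀] (q l : ℕ), IsLocalField k q → 0 < l →
    ∀ φ f : (ℤ × ℤ) →₀ ℂ, IsDominant φ → IsDominant f → IsBC l q φ f →
    ∀ (γ : GL (Fin 2) k) (c' : ℂ) (t : k), IsReg γ →
      t ^ 2 - (γ : Matrix (Fin 2) (Fin 2) k).trace * t + (γ : Matrix (Fin 2) (Fin 2) k).det = 0 →
      ¬ (l : ℤ) ∣ WithZero.log (Valued.v t) →
      IsOrbSum 0 (fun g => f (cartan g)) γ c' → c' = 0

/-- **T6.15c.**  Norm criterion at an unramified place: a regular `γ ∈ GL₂(k)` with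
`l ∣ ord (det γ)` all of whose eigenvalues in `k` have order divisible by `l` is a norm. -/
def NormCritC : Prop :=
  ∀ (k k' : Type) [Field k] [Field k'] [Valued k Γ₀] [Valued k' Γ₀] (q l : ℕ)
    (i : k →+* k') (s : k' ≃+* k'),
    IsLocalField k q → IsLocalField k' (q ^ l) → IsLocalExt k k' l 1 i s → l.Prime →
    ∀ γ : GL (Fin 2) k, IsReg γ →
      (l : ℤ) ∣ WithZero.log (Valued.v (γ : Matrix (Fin 2) (Fin 2) k).det) →
      (∀ t : k, t ^ 2 - (γ : Matrix (Fin 2) (Fin 2) k).trace * t
          + (γ : Matrix (Fin 2) (Fin 2) k).det = 0 → (l : ℤ) ∣ WithZero.log (Valued.v t)) →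
      IsNormFrom l i s γ

/-! ## Elementary facts -/

/-- The residue field of a local field has at least two elements. -/
theorem one_lt_of_isLocalField {k : Type} [Field k] [Valued k Γ₀] {q : ℕ}
    (h : IsLocalField k q) : 1 < q := by
  obtain ⟨T, hcard, -, -, hcov⟩ := h.residue
  obtain ⟨x0, hx0, h0⟩ := hcov 0 (by simp)
  obtain ⟨x1, hx1, h1⟩ := hcov 1 (by simp)
  have hne : x0 ≠ x1 := by
    intro h
    rw [← h] at h1
    have h2 : Valued.v (1 : k) ≤ max (Valued.v (1 - x0)) (Valued.v (x0 - 0)) := by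
      have := Valuation.map_add (Valued.v : Valuation k Γ₀) (1 - x0) (x0 - 0)
      simpa using this
    have h3 : Valued.v (x0 - 0) < 1 := by
      rw [← Valuation.map_neg]
      simpa using h0
    have h4 : Valued.v (1 : k) < 1 := lt_of_le_of_lt h2 (max_lt h1 h3)
    simp at h4
  rw [← hcard]
  exact Finset.one_lt_card.mpr ⟨x0, hx0, x1, hx1, hne⟩

/-- `glAut` of the identity is the identity. -/
theorem glAut_refl {R : Type} [CommRing R] (x : GL (Fin 2) R) :
    glAut (RingEquiv.refl R) x = x := by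
  apply Units.ext
  ext a b
  rfl

/-- The sum of the two Cartan exponents is the order of the determinant. -/
theorem cartan_sum {k : Type} [Field k] [Valued k Γ₀] (g : GL (Fin 2) k) :
    (cartan g).1 + (cartan g).2 = - WithZero.log (Valued.v (g : Matrix (Fin 2) (Fin 2) k).det) := by
  unfold cartan
  ring

/-- The determinant is constant on conjugacy classes. -/
theorem det_conj {k : Type} [Field k] (γ x : GL (Fin 2) k) :
    ((x⁻¹ * γ * x : GL (Fin 2) k) : Matrix (Fin 2) (Fin 2) k).det
      = (γ : Matrix (Fin 2) (Fin 2) k).det := by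
  have h1 : ((x⁻¹ * γ * x : GL (Fin 2) k) : Matrix (Fin 2) (Fin 2) k)
      = ((x⁻¹ : GL (Fin 2) k) : Matrix (Fin 2) (Fin 2) k) * (γ : Matrix (Fin 2) (Fin 2) k)
        * (x : Matrix (Fin 2) (Fin 2) k) := rfl
  have h2 : ((x⁻¹ : GL (Fin 2) k) : Matrix (Fin 2) (Fin 2) k).det
      * (x : Matrix (Fin 2) (Fin 2) k).det = 1 := by
    rw [← Matrix.det_mul]
    have : ((x⁻¹ : GL (Fin 2) k) : Matrix (Fin 2) (Fin 2) k) * (x : Matrix (Fin 2) (Fin 2) k)
        = 1 := Units.inv_mul x
    rw [this, Matrix.det_one]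
  rw [h1, Matrix.det_mul, Matrix.det_mul]
  linear_combination (γ : Matrix (Fin 2) (Fin 2) k).det * h2

/-! ## The top -/

/-- **`FLVanishC` from its three sub-leaves.** -/
theorem flVanish_of (ha : SupportC) (hb : HypVanishC) (hc : NormCritC) : FLVanishC := by
  intro k k' _ _ _ _ q l i s hk hk' hext hl φ f hφ hf hbc γ c' hreg hnn horb
  by_cases h1 : (l : ℤ) ∣ WithZero.log (Valued.v (γ : Matrix (Fin 2) (Fin 2) k).det)
  · by_cases h2 : ∀ t : k, t ^ 2 - (γ : Matrix (Fin 2) (Fin 2) k).trace * t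
        + (γ : Matrix (Fin 2) (Fin 2) k).det = 0 → (l : ℤ) ∣ WithZero.log (Valued.v t)
    · exact absurd (hc k k' q l i s hk hk' hext hl γ hreg h1 h2) hnn
    · rw [not_forall] at h2
      obtain ⟨t, h2'⟩ := h2
      rw [Classical.not_imp] at h2'
      obtain ⟨ht, hlt⟩ := h2'
      exact hb k q l hk hl.pos φ f hφ hf hbc γ c' t hreg ht hlt horb
  · obtain ⟨R, hR1, -, -, hsum⟩ := horb
    rw [hsum]
    apply Finset.sum_eq_zero
    intro y hy
    obtain ⟨x, rfl⟩ := hR1 y hy
    have hsupp : cartan (x⁻¹ * γ * glAut (RingEquiv.refl k) x) ∉ f.support := by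
      intro hmem
      have h3 := ha l q hl.pos (one_lt_of_isLocalField hk) φ f hφ hf hbc _ hmem
      rw [cartan_sum, glAut_refl, det_conj, dvd_neg] at h3
      exact h1 h3
    have hzero : f (cartan (x⁻¹ * γ * glAut (RingEquiv.refl k) x)) = 0 :=
      Finsupp.notMem_support_iff.mp hsupp
    simp only [hzero, zero_mul]

end Fermat.Agent.LT.T6.H159

end
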