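import Mathlib
import Fermat.Agent.LT.T6.Spec
import Fermat.Agent.LT.T6.H159.VanishSpec

/-!
# Row LT, tower T6, sub-leaf T6.15c `NormCritC` (owner helper159) -- split into sub-leaves

`NormCritC`: `k'/k` unramified of prime degree `l`; a regular `γ ∈ GL₂(k)` with
`l ∣ ord (det γ)`, all of whose eigenvalues in `k` have order divisible by `l`, is a norm.

Sub-leaves (all TRUE; pure local algebra, no orbit sums, no Satake):

* `NewtonC` (T6.15c2): `X² - τ X + d` with `d` a unit and `|τ| > 1` has a root in `k`
  (`X = τ Y`, `Y = Y² + d/τ²`, contraction in the complete field `k`).  Used as: an elliptic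
  element with unit determinant has integral trace.
* `QuadUnitNormC` (T6.15c3): every `u ∈ GL₂(k)` with integral trace and unit determinant is an
  exact twisted norm `u = N x` of some `x = a + b u`, `a, b ∈ k'` (unit norm surjectivity in
  the unramified extension `𝒪'[X]/(X² - tX + d)` of `𝒪[X]/(X² - tX + d)`: surjectivity of norm
  and trace on the residue rings + successive approximation modulo `ϖⁿ`).  For scalar `u` this
  is the surjectivity of `N : 𝒪'ˣ → 𝒪ˣ`.
* `Unr2C` (T6.15c4): `l = 2`, `γ` elliptic with `k[γ]/k` unramified: the characteristic polynomial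
  of `γ` has a root in `k'` (uniqueness of the unramified quadratic extension).

The glue `normCrit_of : NewtonC → QuadUnitNormC → Unr2C → NormCritC` is in `NormGlue.lean`.
-/

set_option autoImplicit false

open scoped Matrix

noncomputable section

namespace Fermat.Agent.LT.T6.H159

open Fermat.Agent.LT.T6

/-- **T6.15c2 (Newton polygon with two slopes).**  In a local field, `X² - τ X + d` with
`|d| = 1 < |τ|` has a root. -/
def NewtonC : Prop :=
  ∀ (k : Type) [Field k] [Valued k Γ₀] (q : ℕ), IsLocalField k q →
    ∀ τ d : k, Valued.v d = 1 → 1 < Valued.v τ → ∃ x : k, x ^ 2 - τ * x + d = 0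

/-- **T6.15c3 (unit norm surjectivity, quadratic-algebra form).**  `k'/k` unramified of prime
degree `l`: every `u ∈ GL₂(k)` with integral trace and unit determinant is the twisted norm of
an element `x = a + b u` of `GL₂(k')`. -/
def QuadUnitNormC : Prop :=
  ∀ (k k' : Type) [Field k] [Field k'] [Valued k Γ₀] [Valued k' Γ₀] (q l : ℕ)
    (i : k →+* k') (s : k' ≃+* k'),
    IsLocalField k q → IsLocalField k' (q ^ l) → IsLocalExt k k' l 1 i s → l.Prime →
    ∀ u : GL (Fin 2) k, Valued.v (u : Matrix (Fin 2) (Fin 2) k).trace ≤ 1 →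
      Valued.v (u : Matrix (Fin 2) (Fin 2) k).det = 1 →
      ∃ (x : GL (Fin 2) k') (a b : k'),
        (x : Matrix (Fin 2) (Fin 2) k') = a • (1 : Matrix (Fin 2) (Fin 2) k')
          + b • ((Matrix.GeneralLinearGroup.map i u : GL (Fin 2) k') :
              Matrix (Fin 2) (Fin 2) k') ∧
        twNorm s l x = Matrix.GeneralLinearGroup.map i u

/-- **T6.15c4 (the unramified quadratic extension is unique).**  `k'/k` unramified quadratic,
`γ ∈ GL₂(k)` regular elliptic with `k[γ]/k` unramified: the characteristic polynomial of `γ`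
has a root in `k'`. -/
def Unr2C : Prop :=
  ∀ (k k' : Type) [Field k] [Field k'] [Valued k Γ₀] [Valued k' Γ₀] (q : ℕ)
    (i : k →+* k') (s : k' ≃+* k'),
    IsLocalField k q → IsLocalField k' (q ^ 2) → IsLocalExt k k' 2 1 i s →
    ∀ γ : GL (Fin 2) k, IsReg γ → ¬ HasEigen k γ → ¬ HasRamUnif k γ →
      ∃ x : k', x ^ 2 - i (γ : Matrix (Fin 2) (Fin 2) k).trace * x
        + i (γ : Matrix (Fin 2) (Fin 2) k).det = 0

end Fermat.Agent.LT.T6.H159

end
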