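import Mathlib
import Fermat.Agent.LT.T6.Spec
import Fermat.Agent.LT.T6.H159.VanishSpec
import Fermat.Agent.LT.T6.H159.NormSpec

/-!
# Row LT, tower T6, sub-leaf T6.15c `NormCritC` (helper159): linear algebra for the glue

`normCrit_of : NewtonC → QuadUnitNormC → Unr2C → NormCritC`.

`k'/k` unramified of prime degree `l`, `γ ∈ GL₂(k)` regular, `l ∣ ord (det γ)`, every eigenvalue
of `γ` in `k` of order divisible by `l`.  Three cases:

* (A) `γ` has an eigenvalue in `k`: both eigenvalues `t₁ ≠ t₂` are norms `t_j = N d_j` of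
  elements of `k'` (uniformiser powers and unit norm surjectivity, the scalar case of
  `QuadUnitNormC`), and `N diag(d₁, d₂) = diag(t₁, t₂)` is conjugate to `γ`.
* (B) `γ` elliptic, `k[γ]/k` unramified, `l = 2`: the characteristic polynomial of `γ` has the
  roots `λ ≠ s λ` in `k'` (`Unr2C`), and `N !![0, λ; 1, 0] = diag(λ, s λ)` is conjugate to `γ`.
* (C) `γ` elliptic, `k[γ]/k` ramified or `l` odd: there is `z` in the centraliser of `γ` with
  `l · ord (det z) = ord (det γ)`; `u = γ z⁻ˡ` has unit determinant and (by `NewtonC`) integral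
  trace, `u = N x` with `x ∈ k'[u]` (`QuadUnitNormC`), and `N (z x) = zˡ u = γ`.
-/

set_option autoImplicit false

open scoped Matrix

noncomputable section

namespace Fermat.Agent.LT.T6.H159

open Fermat.Agent.LT.T6

/-! ## The scalar norm -/

section ScalarNorm

variable {R : Type} [CommRing R]

/-- The norm `N_n d = d · s(d) ⋯ s^{n-1}(d)` on scalars. -/
def fNorm (s : R ≃+* R) : ℕ → R → R
  | 0, _ => 1
  | (n + 1), d => d * s (fNorm s n d)

theorem fNorm_zero (s : R ≃+* R) (d : R) : fNorm s 0 d = 1 := rfl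

theorem fNorm_succ (s : R ≃+* R) (n : ℕ) (d : R) :
    fNorm s (n + 1) d = d * s (fNorm s n d) := rfl

theorem fNorm_mul (s : R ≃+* R) (n : ℕ) (c d : R) :
    fNorm s n (c * d) = fNorm s n c * fNorm s n d := by
  induction n with
  | zero => simp [fNorm_zero]
  | succ n ih =>
    rw [fNorm_succ, fNorm_succ, fNorm_succ, ih, map_mul]
    ring

theorem fNorm_fixed (s : R ≃+* R) (n : ℕ) (c : R) (hc : s c = c) :
    fNorm s n c = c ^ n := by
  induction n with
  | zero => simp [fNorm_zero]
  | succ n ih =>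
    rw [fNorm_succ, ih, map_pow, hc, pow_succ]
    ring

/-- Entries of `glAut s δ`. -/
theorem glAut_coe (s : R ≃+* R) (δ : GL (Fin 2) R) (a b : Fin 2) :
    ((glAut s δ : GL (Fin 2) R) : Matrix (Fin 2) (Fin 2) R) a b
      = s ((δ : Matrix (Fin 2) (Fin 2) R) a b) := by
  simp [glAut, Matrix.GeneralLinearGroup.map_apply]

theorem twNorm_zero (s : R ≃+* R) (δ : GL (Fin 2) R) : twNorm s 0 δ = 1 := rfl

theorem twNorm_succ (s : R ≃+* R) (n : ℕ) (δ : GL (Fin 2) R) :
    twNorm s (n + 1) δ = δ * glAut s (twNorm s n δ) := rfl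

/-- The twisted norm of a diagonal matrix. -/
theorem twNorm_diag (s : R ≃+* R) (n : ℕ) (δ : GL (Fin 2) R) (d₁ d₂ : R)
    (h : (δ : Matrix (Fin 2) (Fin 2) R) = !![d₁, 0; 0, d₂]) :
    ((twNorm s n δ : GL (Fin 2) R) : Matrix (Fin 2) (Fin 2) R)
      = !![fNorm s n d₁, 0; 0, fNorm s n d₂] := by
  induction n with
  | zero =>
    rw [twNorm_zero, Matrix.GeneralLinearGroup.coe_one, fNorm_zero, fNorm_zero,
      Matrix.one_fin_two]
  | succ n ih =>
    rw [twNorm_succ, Matrix.GeneralLinearGroup.coe_mul, h]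
    ext a b
    rw [Matrix.mul_apply, Fin.sum_univ_two, glAut_coe, glAut_coe, ih]
    fin_cases a <;> fin_cases b <;> simp [fNorm_succ]

/-- `N (Z x) = Zⁿ N x` if `Z` is fixed by `s` and commutes with `x`. -/
theorem twN_mul_fixed {Γ : Type} [Group Γ] (S : Γ →* Γ) (Z x : Γ) (hZ : S Z = Z)
    (hc : Commute Z x) (n : ℕ) : twN S n (Z * x) = Z ^ n * twN S n x := by
  induction n with
  | zero => simp [twN]
  | succ n ih =>
    have h1 : twN S (n + 1) (Z * x) = Z * x * S (twN S n (Z * x)) := rfl
    have h2 : twN S (n + 1) x = x * S (twN S n x) := rfl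
    rw [h1, h2, ih, map_mul, map_pow, hZ, pow_succ']
    have h3 : x * Z ^ n = Z ^ n * x := ((hc.pow_left n).eq).symm
    calc Z * x * (Z ^ n * S (twN S n x)) = Z * (x * Z ^ n) * S (twN S n x) := by group
      _ = Z * (Z ^ n * x) * S (twN S n x) := by rw [h3]
      _ = Z * Z ^ n * (x * S (twN S n x)) := by group

end ScalarNorm

/-! ## Linear algebra of `2 × 2` matrices over a field -/

section LinAlg

variable {K : Type} [Field K]

/-- The companion-type matrix `!![0, -D; 1, T]`. -/
def compan (T D : K) (hD : D ≠ 0) : GL (Fin 2) K :=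
  Matrix.GeneralLinearGroup.mkOfDetNeZero !![0, -D; 1, T] (by
    rw [Matrix.det_fin_two]; simpa using hD)

theorem compan_coe (T D : K) (hD : D ≠ 0) :
    ((compan T D hD : GL (Fin 2) K) : Matrix (Fin 2) (Fin 2) K) = !![0, -D; 1, T] := rfl

theorem isConj_of_mul_eq {G : Type} [Group G] {N P C : G} (h : N * P = P * C) :
    IsConj N C := by
  rw [isConj_iff]
  refine ⟨P⁻¹, ?_⟩
  rw [inv_inv, mul_assoc, h, inv_mul_cancel_left]

/-- A non-scalar matrix is conjugate to the companion matrix of its characteristic polynomial. -/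
theorem isConj_compan (N : GL (Fin 2) K) (T D : K) (hD : D ≠ 0)
    (hT : T = (N : Matrix (Fin 2) (Fin 2) K) 0 0 + (N : Matrix (Fin 2) (Fin 2) K) 1 1)
    (hDet : D = (N : Matrix (Fin 2) (Fin 2) K) 0 0 * (N : Matrix (Fin 2) (Fin 2) K) 1 1
      - (N : Matrix (Fin 2) (Fin 2) K) 0 1 * (N : Matrix (Fin 2) (Fin 2) K) 1 0)
    (hns : ¬ ((N : Matrix (Fin 2) (Fin 2) K) 0 1 = 0 ∧ (N : Matrix (Fin 2) (Fin 2) K) 1 0 = 0 ∧
      (N : Matrix (Fin 2) (Fin 2) K) 0 0 = (N : Matrix (Fin 2) (Fin 2) K) 1 1)) :
    IsConj N (compan T D hD) := by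
  set a := (N : Matrix (Fin 2) (Fin 2) K) 0 0 with ha
  set b := (N : Matrix (Fin 2) (Fin 2) K) 0 1 with hb
  set c := (N : Matrix (Fin 2) (Fin 2) K) 1 0 with hc
  set d := (N : Matrix (Fin 2) (Fin 2) K) 1 1 with hd
  have hNeta : (N : Matrix (Fin 2) (Fin 2) K) = !![a, b; c, d] := Matrix.eta_fin_two _
  have hC : ((compan T D hD : GL (Fin 2) K) : Matrix (Fin 2) (Fin 2) K)
      = !![0, -(a * d - b * c); 1, a + d] := by
    rw [compan_coe, hT, hDet]
  have key : ∀ (x y : K), c * x ^ 2 + (d - a) * x * y - b * y ^ 2 ≠ 0 →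
      IsConj N (compan T D hD) := by
    intro x y hxy
    have hdet : (!![x, a * x + b * y; y, c * x + d * y] : Matrix (Fin 2) (Fin 2) K).det ≠ 0 := by
      rw [Matrix.det_fin_two]
      simp only [Matrix.of_apply, Matrix.cons_val', Matrix.cons_val_zero, Matrix.cons_val_one,
        Matrix.cons_val_fin_one]
      intro h0
      apply hxy
      linear_combination h0
    let P : GL (Fin 2) K := Matrix.GeneralLinearGroup.mkOfDetNeZero _ hdet
    have hP : (P : Matrix (Fin 2) (Fin 2) K) = !![x, a * x + b * y; y, c * x + d * y] := rfl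
    apply isConj_of_mul_eq (P := P)
    apply Matrix.GeneralLinearGroup.ext
    intro r k
    rw [Matrix.GeneralLinearGroup.coe_mul, Matrix.GeneralLinearGroup.coe_mul, hC, hP, hNeta]
    fin_cases r <;> fin_cases k <;>
      simp [Matrix.mul_apply, Fin.sum_univ_two] <;> ring
  by_cases hc0 : c = 0
  · by_cases hb0 : b = 0
    · have had : a ≠ d := fun h => hns ⟨hb0, hc0, h⟩
      apply key 1 1
      rw [hc0, hb0]
      simpa [sub_eq_zero] using fun h : d = a => had h.symm
    · apply key 0 1
      simpa using hb0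
  · apply key 1 0
    simpa using hc0

/-- A matrix with non-zero discriminant is not scalar. -/
theorem not_scalar_of_disc (N : Matrix (Fin 2) (Fin 2) K)
    (h : N.trace ^ 2 - 4 * N.det ≠ 0) :
    ¬ (N 0 1 = 0 ∧ N 1 0 = 0 ∧ N 0 0 = N 1 1) := by
  rintro ⟨h1, h2, h3⟩
  apply h
  rw [Matrix.trace_fin_two, Matrix.det_fin_two, h1, h2, h3]
  ring

/-- Two regular elements of `GL₂(K)` with the same trace and determinant are conjugate. -/
theorem isConj_of_trace_det (A B : GL (Fin 2) K)
    (htr : (A : Matrix (Fin 2) (Fin 2) K).trace = (B : Matrix (Fin 2) (Fin 2) K).trace)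
    (hdet : (A : Matrix (Fin 2) (Fin 2) K).det = (B : Matrix (Fin 2) (Fin 2) K).det)
    (hreg : (A : Matrix (Fin 2) (Fin 2) K).trace ^ 2
      - 4 * (A : Matrix (Fin 2) (Fin 2) K).det ≠ 0) : IsConj A B := by
  have hD : (A : Matrix (Fin 2) (Fin 2) K).det ≠ 0 := by
    have := (Matrix.isUnit_iff_isUnit_det _).mp A.isUnit
    exact this.ne_zero
  have hA := isConj_compan A _ _ hD (Matrix.trace_fin_two _) (Matrix.det_fin_two _)
    (not_scalar_of_disc _ hreg)
  have hB := isConj_compan B _ _ hD (htr.trans (Matrix.trace_fin_two _))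
    (hdet.trans (Matrix.det_fin_two _)) (not_scalar_of_disc _ (by rw [← htr, ← hdet]; exact hreg))
  exact hA.trans hB.symm

/-- The centraliser of a non-scalar `2 × 2` matrix `γ` is `K + K γ`. -/
theorem exists_eq_add_smul_of_comm (γ u : Matrix (Fin 2) (Fin 2) K)
    (hns : ¬ (γ 0 1 = 0 ∧ γ 1 0 = 0 ∧ γ 0 0 = γ 1 1)) (hcomm : u * γ = γ * u) :
    ∃ α β : K, u = α • (1 : Matrix (Fin 2) (Fin 2) K) + β • γ := by
  set a := γ 0 0 with ha
  set b := γ 0 1 with hb
  set c := γ 1 0 with hc
  set d := γ 1 1 with hd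
  set p := u 0 0 with hp
  set q := u 0 1 with hq
  set r := u 1 0 with hr
  set s := u 1 1 with hs
  have hγ : γ = !![a, b; c, d] := Matrix.eta_fin_two _
  have hu : u = !![p, q; r, s] := Matrix.eta_fin_two _
  have e00 : p * a + q * c = a * p + b * r := by
    have := congrFun (congrFun hcomm 0) 0
    rw [hγ, hu] at this
    simpa [Matrix.mul_apply, Fin.sum_univ_two] using this
  have e01 : p * b + q * d = a * q + b * s := by
    have := congrFun (congrFun hcomm 0) 1
    rw [hγ, hu] at this
    simpa [Matrix.mul_apply, Fin.sum_univ_two] using this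
  have e10 : r * a + s * c = c * p + d * r := by
    have := congrFun (congrFun hcomm 1) 0
    rw [hγ, hu] at this
    simpa [Matrix.mul_apply, Fin.sum_univ_two] using this
  have e11 : r * b + s * d = c * q + d * s := by
    have := congrFun (congrFun hcomm 1) 1
    rw [hγ, hu] at this
    simpa [Matrix.mul_apply, Fin.sum_univ_two] using this
  have fin : ∀ α β : K, p = α + β * a → q = β * b → r = β * c → s = α + β * d →
      ∃ α β : K, u = α • (1 : Matrix (Fin 2) (Fin 2) K) + β • γ := by
    intro α β h1 h2 h3 h4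
    refine ⟨α, β, ?_⟩
    rw [hγ, hu, Matrix.one_fin_two]
    ext i j
    fin_cases i <;> fin_cases j <;> simp [h1, h2, h3, h4]
  by_cases hb0 : b = 0
  · by_cases hc0 : c = 0
    · have had : a - d ≠ 0 := fun h => hns ⟨hb0, hc0, sub_eq_zero.mp h⟩
      have hq0 : q = 0 := by
        have : q * (a - d) = 0 := by rw [hb0] at e01; linear_combination -e01
        rcases mul_eq_zero.mp this with h | h
        · exact h
        · exact absurd h had
      have hr0 : r = 0 := by
        have : r * (a - d) = 0 := by rw [hc0] at e10; linear_combination e10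
        rcases mul_eq_zero.mp this with h | h
        · exact h
        · exact absurd h had
      refine fin (p - (p - s) / (a - d) * a) ((p - s) / (a - d)) (by ring) (by rw [hq0, hb0]; ring)
        (by rw [hr0, hc0]; ring) ?_
      field_simp
      ring
    · refine fin (p - r / c * a) (r / c) (by ring) ?_ (by field_simp) ?_
      · field_simp
        linear_combination -e11
      · field_simp
        linear_combination e10
  · refine fin (p - q / b * a) (q / b) (by ring) (by field_simp) ?_ ?_
    · field_simp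
      linear_combination -e00
    · field_simp
      linear_combination -e01

end LinAlg

end Fermat.Agent.LT.T6.H159

end
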