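import Mathlib
import Fermat.Agent.LT.T6.Spec
import Fermat.Agent.LT.T6.H159.VanishSpec
import Fermat.Agent.LT.T6.H159.NormSpec
import Fermat.Agent.LT.T6.H159.NormLin

/-!
# Row LT, tower T6, sub-leaf T6.15c `NormCritC` (helper159): the glue

`normCrit_of : NewtonC → QuadUnitNormC → Unr2C → NormCritC`  (see `NormLin.lean` for the plan).
-/

set_option autoImplicit false

open scoped Matrix

noncomputable section

namespace Fermat.Agent.LT.T6.H159

open Fermat.Agent.LT.T6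

/-! ## Valuations -/

section Val

variable {k : Type} [Field k] [Valued k Γ₀]

/-- `|x| = exp (log |x|)` for `x ≠ 0`. -/
theorem v_eq_exp_log {x : k} (hx : x ≠ 0) :
    Valued.v x = WithZero.exp (WithZero.log (Valued.v x)) :=
  (WithZero.exp_log ((Valuation.ne_zero_iff _).mpr hx)).symm

theorem log_v_mul {x y : k} (hx : x ≠ 0) (hy : y ≠ 0) :
    WithZero.log (Valued.v (x * y)) = WithZero.log (Valued.v x) + WithZero.log (Valued.v y) := by
  rw [map_mul, WithZero.log_mul ((Valuation.ne_zero_iff _).mpr hx)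
    ((Valuation.ne_zero_iff _).mpr hy)]

theorem log_v_zpow (x : k) (n : ℤ) :
    WithZero.log (Valued.v (x ^ n)) = n * WithZero.log (Valued.v x) := by
  rw [map_zpow₀, WithZero.log_zpow, smul_eq_mul]

theorem log_v_pow (x : k) (n : ℕ) :
    WithZero.log (Valued.v (x ^ n)) = n * WithZero.log (Valued.v x) := by
  rw [map_pow, WithZero.log_pow, nsmul_eq_mul]

theorem v_eq_one_of_log {x : k} (hx : x ≠ 0) (h : WithZero.log (Valued.v x) = 0) :
    Valued.v x = 1 := by
  rw [v_eq_exp_log hx, h, WithZero.exp_zero]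

theorem v_eq_exp_of_log {x : k} (hx : x ≠ 0) {n : ℤ} (h : WithZero.log (Valued.v x) = n) :
    Valued.v x = WithZero.exp n := by
  rw [v_eq_exp_log hx, h]

theorem v_two_le_one : Valued.v (2 : k) ≤ 1 := by
  have h : (2 : k) = 1 + 1 := by norm_num
  rw [h]
  refine le_trans (Valuation.map_add _ _ _) ?_
  simp

theorem log_v_unif {ϖ : k} (h : Valued.v ϖ = WithZero.exp (-1 : ℤ)) :
    WithZero.log (Valued.v ϖ) = -1 := by
  rw [h, WithZero.log_exp]

theorem unif_ne_zero {ϖ : k} (h : Valued.v ϖ = WithZero.exp (-1 : ℤ)) : ϖ ≠ 0 := by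
  intro h0
  rw [h0, map_zero] at h
  exact WithZero.exp_ne_zero h.symm

end Val

/-! ## Diagonal elements, base change of matrices -/

section Diag

variable {K K' : Type} [Field K] [Field K']

/-- The diagonal element `diag(d₁, d₂)` of `GL₂(K)`. -/
def diagGL (d₁ d₂ : K) (h₁ : d₁ ≠ 0) (h₂ : d₂ ≠ 0) : GL (Fin 2) K :=
  Matrix.GeneralLinearGroup.mkOfDetNeZero !![d₁, 0; 0, d₂] (by
    rw [Matrix.det_fin_two_of]
    simpa using mul_ne_zero h₁ h₂)

theorem diagGL_coe (d₁ d₂ : K) (h₁ : d₁ ≠ 0) (h₂ : d₂ ≠ 0) :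
    ((diagGL d₁ d₂ h₁ h₂ : GL (Fin 2) K) : Matrix (Fin 2) (Fin 2) K) = !![d₁, 0; 0, d₂] := rfl

theorem trace_map_gl (f : K →+* K') (g : GL (Fin 2) K) :
    ((Matrix.GeneralLinearGroup.map f g : GL (Fin 2) K') : Matrix (Fin 2) (Fin 2) K').trace
      = f (g : Matrix (Fin 2) (Fin 2) K).trace := by
  rw [Matrix.trace_fin_two, Matrix.trace_fin_two, Matrix.GeneralLinearGroup.map_apply,
    Matrix.GeneralLinearGroup.map_apply, map_add]

theorem det_map_gl (f : K →+* K') (g : GL (Fin 2) K) :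
    ((Matrix.GeneralLinearGroup.map f g : GL (Fin 2) K') : Matrix (Fin 2) (Fin 2) K').det
      = f (g : Matrix (Fin 2) (Fin 2) K).det := by
  rw [Matrix.det_fin_two, Matrix.det_fin_two, Matrix.GeneralLinearGroup.map_apply,
    Matrix.GeneralLinearGroup.map_apply, Matrix.GeneralLinearGroup.map_apply,
    Matrix.GeneralLinearGroup.map_apply, map_sub, map_mul, map_mul]

theorem det_gl_ne_zero (g : GL (Fin 2) K) : (g : Matrix (Fin 2) (Fin 2) K).det ≠ 0 :=
  ((Matrix.isUnit_iff_isUnit_det _).mp g.isUnit).ne_zero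

theorem map_diagGL (f : K →+* K') (d₁ d₂ : K) (h₁ : d₁ ≠ 0) (h₂ : d₂ ≠ 0) :
    ((Matrix.GeneralLinearGroup.map f (diagGL d₁ d₂ h₁ h₂) : GL (Fin 2) K') :
      Matrix (Fin 2) (Fin 2) K') = !![f d₁, 0; 0, f d₂] := by
  ext a b
  rw [Matrix.GeneralLinearGroup.map_apply, diagGL_coe]
  fin_cases a <;> fin_cases b <;> simp

theorem disc_ne_zero {γ : GL (Fin 2) K} (hreg : IsReg γ) :
    (γ : Matrix (Fin 2) (Fin 2) K).trace ^ 2 - 4 * (γ : Matrix (Fin 2) (Fin 2) K).det ≠ 0 :=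
  hreg.ne_zero

omit [Field K] in
theorem fNorm_zero_arg (s : K' ≃+* K') (n : ℕ) (hn : 0 < n) : fNorm s n 0 = 0 := by
  obtain ⟨m, rfl⟩ : ∃ m, n = m + 1 := ⟨n - 1, by omega⟩
  rw [fNorm_succ, zero_mul]

end Diag

/-! ## Norms of scalars -/

section Scalars

variable {k k' : Type} [Field k] [Field k'] [Valued k Γ₀] [Valued k' Γ₀]

/-- Every `t ∈ kˣ` with `l ∣ ord t` is a norm from `k'`. -/
theorem scalar_norm (hQ : QuadUnitNormC) (q l : ℕ) (i : k →+* k') (s : k' ≃+* k')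
    (hk : IsLocalField k q) (hk' : IsLocalField k' (q ^ l)) (hext : IsLocalExt k k' l 1 i s)
    (hl : l.Prime) (t : k) (ht : t ≠ 0) (hdiv : (l : ℤ) ∣ WithZero.log (Valued.v t)) :
    ∃ d : k', d ≠ 0 ∧ fNorm s l d = i t := by
  obtain ⟨ϖ, hϖ⟩ := hk.unif
  have hϖ0 : ϖ ≠ 0 := unif_ne_zero hϖ
  obtain ⟨m, hm⟩ := hdiv
  -- the unit part
  set w : k := t * ϖ ^ ((l : ℤ) * m) with hw
  have hw0 : w ≠ 0 := mul_ne_zero ht (zpow_ne_zero _ hϖ0)
  have hwv : Valued.v w = 1 := by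
    apply v_eq_one_of_log hw0
    rw [hw, log_v_mul ht (zpow_ne_zero _ hϖ0), log_v_zpow, log_v_unif hϖ, hm]
    ring
  obtain ⟨x, a, b, hx, hN⟩ := hQ k k' q l i s hk hk' hext hl (diagGL w w hw0 hw0)
    (by
      rw [diagGL_coe, Matrix.trace_fin_two_of]
      have h2 : w + w = 2 * w := by ring
      rw [h2, map_mul, hwv, mul_one]
      exact v_two_le_one)
    (by
      rw [diagGL_coe, Matrix.det_fin_two_of, mul_zero, sub_zero, map_mul, hwv, mul_one])
  rw [map_diagGL] at hx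
  set c : k' := a + b * i w with hc
  have hxc : (x : Matrix (Fin 2) (Fin 2) k') = !![c, 0; 0, c] := by
    rw [hx, Matrix.one_fin_two]
    ext r j
    fin_cases r <;> fin_cases j <;> simp [hc]
  have h1 := twNorm_diag s l x c c hxc
  rw [hN, map_diagGL] at h1
  have hc1 : fNorm s l c = i w := by
    have := congrFun (congrFun h1 0) 0
    simpa using this.symm
  refine ⟨c * i (ϖ ^ (-m)), ?_, ?_⟩
  · have hiw : i w ≠ 0 := (map_ne_zero i).mpr hw0
    have hc0 : c ≠ 0 := by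
      intro h0
      rw [h0, fNorm_zero_arg s l hl.pos] at hc1
      exact hiw hc1.symm
    exact mul_ne_zero hc0 ((map_ne_zero i).mpr (zpow_ne_zero _ hϖ0))
  · rw [fNorm_mul, hc1, fNorm_fixed s l _ (hext.cyc.fix_i _), ← map_pow, ← map_mul]
    congr 1
    rw [hw, ← zpow_natCast (ϖ ^ (-m)) l, ← zpow_mul, mul_assoc, ← zpow_add₀ hϖ0]
    have : (l : ℤ) * m + -m * (l : ℤ) = 0 := by ring
    rw [this, zpow_zero, mul_one]

end Scalars

/-! ## Case (A): `γ` has an eigenvalue in `k` -/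

section CaseA

variable {k k' : Type} [Field k] [Field k'] [Valued k Γ₀] [Valued k' Γ₀]

theorem normCrit_hyp (hQ : QuadUnitNormC) (q l : ℕ) (i : k →+* k') (s : k' ≃+* k')
    (hk : IsLocalField k q) (hk' : IsLocalField k' (q ^ l)) (hext : IsLocalExt k k' l 1 i s)
    (hl : l.Prime) (γ : GL (Fin 2) k) (hreg : IsReg γ)
    (heig : ∀ t : k, t ^ 2 - (γ : Matrix (Fin 2) (Fin 2) k).trace * t
        + (γ : Matrix (Fin 2) (Fin 2) k).det = 0 → (l : ℤ) ∣ WithZero.log (Valued.v t))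
    (t₁ : k) (ht₁ : t₁ ^ 2 - (γ : Matrix (Fin 2) (Fin 2) k).trace * t₁
        + (γ : Matrix (Fin 2) (Fin 2) k).det = 0) :
    IsNormFrom l i s γ := by
  set T := (γ : Matrix (Fin 2) (Fin 2) k).trace with hT
  set D := (γ : Matrix (Fin 2) (Fin 2) k).det with hD
  have hD0 : D ≠ 0 := det_gl_ne_zero γ
  set t₂ : k := T - t₁ with ht₂def
  have ht₂ : t₂ ^ 2 - T * t₂ + D = 0 := by
    rw [ht₂def]; linear_combination ht₁
  have hprod : t₁ * t₂ = D := by
    rw [ht₂def]; linear_combination -ht₁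
  have h10 : t₁ ≠ 0 := by
    intro h; apply hD0; rw [← hprod, h, zero_mul]
  have h20 : t₂ ≠ 0 := by
    intro h; apply hD0; rw [← hprod, h, mul_zero]
  obtain ⟨d₁, hd₁0, hd₁⟩ := scalar_norm hQ q l i s hk hk' hext hl t₁ h10 (heig t₁ ht₁)
  obtain ⟨d₂, hd₂0, hd₂⟩ := scalar_norm hQ q l i s hk hk' hext hl t₂ h20 (heig t₂ ht₂)
  refine ⟨diagGL d₁ d₂ hd₁0 hd₂0, ?_⟩
  have hN := twNorm_diag s l (diagGL d₁ d₂ hd₁0 hd₂0) d₁ d₂ (diagGL_coe _ _ _ _)
  rw [hd₁, hd₂] at hN
  have htr : ((twNorm s l (diagGL d₁ d₂ hd₁0 hd₂0) : GL (Fin 2) k') :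
      Matrix (Fin 2) (Fin 2) k').trace = i T := by
    rw [hN, Matrix.trace_fin_two_of, ← map_add]
    congr 1
    rw [ht₂def]; ring
  have hdet : ((twNorm s l (diagGL d₁ d₂ hd₁0 hd₂0) : GL (Fin 2) k') :
      Matrix (Fin 2) (Fin 2) k').det = i D := by
    rw [hN, Matrix.det_fin_two_of, mul_zero, sub_zero, ← map_mul, hprod]
  apply isConj_of_trace_det
  · rw [htr, trace_map_gl]
  · rw [hdet, det_map_gl]
  · rw [htr, hdet]
    have h4 : (4 : k') = i 4 := (map_ofNat i 4).symm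
    rw [h4, ← map_pow, ← map_mul, ← map_sub]
    exact (map_ne_zero i).mpr (disc_ne_zero hreg)

end CaseA

/-! ## Case (B): `γ` elliptic, `k[γ]/k` unramified, `l = 2` -/

section CaseB

variable {k k' : Type} [Field k] [Field k'] [Valued k Γ₀] [Valued k' Γ₀]

theorem normCrit_unr2 (hU : Unr2C) (q : ℕ) (i : k →+* k') (s : k' ≃+* k')
    (hk : IsLocalField k q) (hk' : IsLocalField k' (q ^ 2)) (hext : IsLocalExt k k' 2 1 i s)
    (γ : GL (Fin 2) k) (hreg : IsReg γ) (hne : ¬ HasEigen k γ) (hnr : ¬ HasRamUnif k γ) :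
    IsNormFrom 2 i s γ := by
  obtain ⟨lam, hlam⟩ := hU k k' q i s hk hk' hext γ hreg hne hnr
  set T := (γ : Matrix (Fin 2) (Fin 2) k).trace with hT
  set D := (γ : Matrix (Fin 2) (Fin 2) k).det with hD
  have hD0 : D ≠ 0 := det_gl_ne_zero γ
  have hs_root : (s lam) ^ 2 - i T * s lam + i D = 0 := by
    have h := congrArg s hlam
    rw [map_add, map_sub, map_mul, map_pow, hext.cyc.fix_i, hext.cyc.fix_i, map_zero] at h
    exact h
  have hsne : s lam ≠ lam := by
    intro h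
    obtain ⟨t, ht⟩ := hext.cyc.fixed lam h
    apply hne
    refine ⟨t, ?_⟩
    apply i.injective
    rw [map_add, map_sub, map_mul, map_pow, ht, map_zero]
    exact hlam
  have hs : s lam = i T - lam := by
    have h : (s lam - lam) * (s lam - (i T - lam)) = 0 := by
      linear_combination hs_root - hlam
    rcases mul_eq_zero.mp h with h1 | h1
    · exact absurd (sub_eq_zero.mp h1) hsne
    · exact sub_eq_zero.mp h1
  have hprod : lam * s lam = i D := by
    rw [hs]; linear_combination -hlam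
  have hlam0 : lam ≠ 0 := by
    intro h
    have : i D = 0 := by rw [← hprod, h, zero_mul]
    exact hD0 ((map_eq_zero i).mp this)
  have hdet : (!![0, lam; 1, 0] : Matrix (Fin 2) (Fin 2) k').det ≠ 0 := by
    rw [Matrix.det_fin_two_of]
    simpa using hlam0
  let δ : GL (Fin 2) k' := Matrix.GeneralLinearGroup.mkOfDetNeZero _ hdet
  have hδ : (δ : Matrix (Fin 2) (Fin 2) k') = !![0, lam; 1, 0] := rfl
  have h2 : twNorm s 2 δ = δ * glAut s δ := by
    have : twNorm s 2 δ = δ * glAut s (δ * glAut s 1) := rfl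
    rw [this, map_one, mul_one]
  have hN : ((twNorm s 2 δ : GL (Fin 2) k') : Matrix (Fin 2) (Fin 2) k')
      = !![lam, 0; 0, s lam] := by
    rw [h2, Matrix.GeneralLinearGroup.coe_mul]
    ext a b
    rw [Matrix.mul_apply, Fin.sum_univ_two, glAut_coe, glAut_coe, hδ]
    fin_cases a <;> fin_cases b <;> simp
  refine ⟨δ, ?_⟩
  apply isConj_of_trace_det
  · rw [hN, Matrix.trace_fin_two_of, trace_map_gl, hs]
    ring
  · rw [hN, Matrix.det_fin_two_of, mul_zero, sub_zero, det_map_gl, hprod]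
  · rw [hN, Matrix.trace_fin_two_of, Matrix.det_fin_two_of, mul_zero, sub_zero, hprod, hs]
    have h4 : (4 : k') = i 4 := (map_ofNat i 4).symm
    have h5 : lam + (i T - lam) = i T := by ring
    rw [h5, h4, ← map_pow, ← map_mul, ← map_sub]
    exact (map_ne_zero i).mpr (disc_ne_zero hreg)

end CaseB

/-! ## Case (C): `γ` elliptic, `k[γ]/k` ramified or `l` odd -/

section CaseC

variable {k k' : Type} [Field k] [Field k'] [Valued k Γ₀] [Valued k' Γ₀]

omit [Valued k Γ₀] in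
theorem det_mul_gl (g h : GL (Fin 2) k) :
    ((g * h : GL (Fin 2) k) : Matrix (Fin 2) (Fin 2) k).det
      = (g : Matrix (Fin 2) (Fin 2) k).det * (h : Matrix (Fin 2) (Fin 2) k).det := by
  rw [Matrix.GeneralLinearGroup.coe_mul, Matrix.det_mul]

omit [Valued k Γ₀] in
theorem det_inv_gl (g : GL (Fin 2) k) :
    ((g⁻¹ : GL (Fin 2) k) : Matrix (Fin 2) (Fin 2) k).det
      = ((g : Matrix (Fin 2) (Fin 2) k).det)⁻¹ := by
  have h1 : ((g⁻¹ : GL (Fin 2) k) : Matrix (Fin 2) (Fin 2) k).det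
      * (g : Matrix (Fin 2) (Fin 2) k).det = 1 := by
    rw [← det_mul_gl, inv_mul_cancel, Matrix.GeneralLinearGroup.coe_one, Matrix.det_one]
  exact eq_inv_of_mul_eq_one_left h1

omit [Valued k Γ₀] in
theorem det_pow_gl (g : GL (Fin 2) k) (n : ℕ) :
    ((g ^ n : GL (Fin 2) k) : Matrix (Fin 2) (Fin 2) k).det
      = ((g : Matrix (Fin 2) (Fin 2) k).det) ^ n := by
  induction n with
  | zero => simp
  | succ n ih => rw [pow_succ, det_mul_gl, ih, pow_succ]

omit [Valued k Γ₀] in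
theorem det_zpow_gl (g : GL (Fin 2) k) (n : ℤ) :
    ((g ^ n : GL (Fin 2) k) : Matrix (Fin 2) (Fin 2) k).det
      = ((g : Matrix (Fin 2) (Fin 2) k).det) ^ n := by
  cases n with
  | ofNat m => rw [Int.ofNat_eq_natCast, zpow_natCast, zpow_natCast, det_pow_gl]
  | negSucc m => rw [zpow_negSucc, zpow_negSucc, det_inv_gl, det_pow_gl]

/-- The scalar matrices are central. -/
theorem diagGL_comm {K : Type} [Field K] (c : K) (hc : c ≠ 0) (g : GL (Fin 2) K) :
    diagGL c c hc hc * g = g * diagGL c c hc hc := by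
  apply Matrix.GeneralLinearGroup.ext
  intro a b
  rw [Matrix.GeneralLinearGroup.coe_mul, Matrix.GeneralLinearGroup.coe_mul, diagGL_coe,
    Matrix.mul_apply, Matrix.mul_apply, Fin.sum_univ_two, Fin.sum_univ_two]
  fin_cases a <;> fin_cases b <;> simp [mul_comm]

theorem det_diagGL {K : Type} [Field K] (c : K) (hc : c ≠ 0) :
    ((diagGL c c hc hc : GL (Fin 2) K) : Matrix (Fin 2) (Fin 2) K).det = c ^ 2 := by
  rw [diagGL_coe, Matrix.det_fin_two_of]
  ring

/-- An `l`-th root of `γ` modulo units in the centraliser of `γ`. -/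
theorem exists_cent_root (q l : ℕ) (hk : IsLocalField k q) (hl : l.Prime) (γ : GL (Fin 2) k)
    (hdiv : (l : ℤ) ∣ WithZero.log (Valued.v (γ : Matrix (Fin 2) (Fin 2) k).det))
    (h : HasRamUnif k γ ∨ l ≠ 2) :
    ∃ z : GL (Fin 2) k, z * γ = γ * z ∧
      Valued.v (z : Matrix (Fin 2) (Fin 2) k).det ^ l
        = Valued.v (γ : Matrix (Fin 2) (Fin 2) k).det := by
  have hD0 : (γ : Matrix (Fin 2) (Fin 2) k).det ≠ 0 := det_gl_ne_zero γ
  by_cases hram : HasRamUnif k γ
  · obtain ⟨t₀, hcomm, hdet⟩ := hram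
    obtain ⟨m, hm⟩ := hdiv
    refine ⟨t₀ ^ (-m), ?_, ?_⟩
    · have hc : Commute t₀ γ := hcomm
      exact (hc.zpow_left (-m)).eq
    · have hz0 : ((t₀ ^ (-m) : GL (Fin 2) k) : Matrix (Fin 2) (Fin 2) k).det ≠ 0 :=
        det_gl_ne_zero _
      rw [← map_pow, v_eq_exp_log (pow_ne_zero l hz0), v_eq_exp_log hD0]
      congr 1
      rw [log_v_pow, det_zpow_gl, log_v_zpow, hdet, WithZero.log_exp, hm]
      ring
  · have hl2 : l ≠ 2 := by
      rcases h with h | h
      · exact absurd h hram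
      · exact h
    obtain ⟨ϖ, hϖ⟩ := hk.unif
    have hϖ0 : ϖ ≠ 0 := unif_ne_zero hϖ
    -- the order of `det γ` is even
    have heven : (2 : ℤ) ∣ WithZero.log (Valued.v (γ : Matrix (Fin 2) (Fin 2) k).det) := by
      by_contra hodd
      obtain ⟨j, hj⟩ : ∃ j : ℤ,
          WithZero.log (Valued.v (γ : Matrix (Fin 2) (Fin 2) k).det) = 2 * j + 1 := by
        refine ⟨WithZero.log (Valued.v (γ : Matrix (Fin 2) (Fin 2) k).det) / 2, ?_⟩
        omega
      apply hram
      have hc0 : ϖ ^ (j + 1) ≠ 0 := zpow_ne_zero _ hϖ0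
      refine ⟨diagGL (ϖ ^ (j + 1)) (ϖ ^ (j + 1)) hc0 hc0 * γ, ?_, ?_⟩
      · have hc : Commute (diagGL (ϖ ^ (j + 1)) (ϖ ^ (j + 1)) hc0 hc0) γ := diagGL_comm _ _ γ
        exact (hc.mul_left (Commute.refl γ)).eq
      · rw [det_mul_gl, det_diagGL]
        apply v_eq_exp_of_log (mul_ne_zero (pow_ne_zero 2 hc0) hD0)
        rw [log_v_mul (pow_ne_zero 2 hc0) hD0, log_v_pow, log_v_zpow, log_v_unif hϖ, hj]
        push_cast
        ring
    obtain ⟨m', hm'⟩ := heven
    have hlm : (l : ℤ) ∣ m' := by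
      have h1 : (l : ℤ) ∣ 2 * m' := hm' ▸ hdiv
      have hcop : IsCoprime (l : ℤ) 2 := by
        have : Nat.Coprime l 2 := by
          rw [Nat.coprime_primes hl Nat.prime_two]
          exact hl2
        exact_mod_cast Nat.isCoprime_iff_coprime.mpr this
      exact hcop.dvd_of_dvd_mul_left h1
    obtain ⟨m'', hm''⟩ := hlm
    have hc0 : ϖ ^ (-m'') ≠ 0 := zpow_ne_zero _ hϖ0
    refine ⟨diagGL (ϖ ^ (-m'')) (ϖ ^ (-m'')) hc0 hc0, diagGL_comm _ _ _, ?_⟩
    rw [← map_pow, v_eq_exp_log (pow_ne_zero l (det_gl_ne_zero _)), v_eq_exp_log hD0]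
    congr 1
    rw [log_v_pow, det_diagGL, log_v_pow, log_v_zpow, log_v_unif hϖ, hm', hm'']
    push_cast
    ring

/-- An element of the centraliser of an elliptic `γ` with unit determinant has integral trace. -/
theorem trace_integral (hNw : NewtonC) (q : ℕ) (hk : IsLocalField k q) (γ u : GL (Fin 2) k)
    (hreg : IsReg γ) (hne : ¬ HasEigen k γ) (hcomm : u * γ = γ * u)
    (hdet : Valued.v (u : Matrix (Fin 2) (Fin 2) k).det = 1) :
    Valued.v (u : Matrix (Fin 2) (Fin 2) k).trace ≤ 1 := by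
  by_contra hgt
  rw [not_le] at hgt
  obtain ⟨e, he⟩ := hNw k q hk _ _ hdet hgt
  have hcm : (u : Matrix (Fin 2) (Fin 2) k) * (γ : Matrix (Fin 2) (Fin 2) k)
      = (γ : Matrix (Fin 2) (Fin 2) k) * (u : Matrix (Fin 2) (Fin 2) k) := by
    rw [← Matrix.GeneralLinearGroup.coe_mul, ← Matrix.GeneralLinearGroup.coe_mul, hcomm]
  obtain ⟨α, β, hαβ⟩ := exists_eq_add_smul_of_comm _ _
    (not_scalar_of_disc _ (disc_ne_zero hreg)) hcm
  have htr : (u : Matrix (Fin 2) (Fin 2) k).trace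
      = 2 * α + β * (γ : Matrix (Fin 2) (Fin 2) k).trace := by
    rw [hαβ, Matrix.trace_add, Matrix.trace_smul, Matrix.trace_smul, Matrix.trace_one]
    simp
    ring
  have hdt : (u : Matrix (Fin 2) (Fin 2) k).det
      = α ^ 2 + α * β * (γ : Matrix (Fin 2) (Fin 2) k).trace
        + β ^ 2 * (γ : Matrix (Fin 2) (Fin 2) k).det := by
    rw [hαβ, Matrix.det_fin_two, Matrix.trace_fin_two, Matrix.det_fin_two]
    simp
    ring
  by_cases hβ : β = 0
  · rw [hβ] at htr hdt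
    have hα2 : (u : Matrix (Fin 2) (Fin 2) k).det = α ^ 2 := by
      rw [hdt]; ring
    have hα0 : α ≠ 0 := by
      intro h0
      have := det_gl_ne_zero u
      rw [hα2, h0] at this
      exact this (by ring)
    have hvα : Valued.v α = 1 := by
      apply v_eq_one_of_log hα0
      have h1 : WithZero.log (Valued.v (α ^ 2)) = 0 := by
        rw [← hα2, hdet, WithZero.log_one]
      rw [log_v_pow] at h1
      push_cast at h1
      omega
    have : Valued.v (u : Matrix (Fin 2) (Fin 2) k).trace ≤ 1 := by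
      rw [htr, zero_mul, add_zero, map_mul, hvα, mul_one]
      exact v_two_le_one
    exact absurd hgt (not_lt.mpr this)
  · apply hne
    refine ⟨(e - α) / β, ?_⟩
    rw [htr, hdt] at he
    have hβ2 : β ^ 2 ≠ 0 := pow_ne_zero 2 hβ
    apply mul_left_cancel₀ hβ2
    rw [mul_zero]
    field_simp
    linear_combination he

theorem normCrit_ell (hNw : NewtonC) (hQ : QuadUnitNormC) (q l : ℕ) (i : k →+* k')
    (s : k' ≃+* k') (hk : IsLocalField k q) (hk' : IsLocalField k' (q ^ l))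
    (hext : IsLocalExt k k' l 1 i s) (hl : l.Prime) (γ : GL (Fin 2) k) (hreg : IsReg γ)
    (hne : ¬ HasEigen k γ)
    (hdiv : (l : ℤ) ∣ WithZero.log (Valued.v (γ : Matrix (Fin 2) (Fin 2) k).det))
    (h : HasRamUnif k γ ∨ l ≠ 2) : IsNormFrom l i s γ := by
  obtain ⟨z, hzc, hzv⟩ := exists_cent_root q l hk hl γ hdiv h
  have hc : Commute z γ := hzc
  have hzl : Commute (z ^ l) γ := hc.pow_left l
  have huγ : γ * (z ^ l)⁻¹ * γ = γ * (γ * (z ^ l)⁻¹) :=
    ((Commute.refl γ).mul_left hzl.inv_left).eq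
  have hudet : Valued.v ((γ * (z ^ l)⁻¹ : GL (Fin 2) k) : Matrix (Fin 2) (Fin 2) k).det = 1 := by
    rw [det_mul_gl, det_inv_gl, det_pow_gl, map_mul, map_inv₀, map_pow, hzv]
    exact mul_inv_cancel₀ ((Valuation.ne_zero_iff _).mpr (det_gl_ne_zero γ))
  have hutr := trace_integral hNw q hk γ (γ * (z ^ l)⁻¹) hreg hne huγ hudet
  obtain ⟨x, a, b, hx, hN⟩ := hQ k k' q l i s hk hk' hext hl (γ * (z ^ l)⁻¹) hutr hudet
  have hZ : glAut s (Matrix.GeneralLinearGroup.map i z) = Matrix.GeneralLinearGroup.map i z := by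
    apply Matrix.GeneralLinearGroup.ext
    intro r j
    rw [glAut_coe, Matrix.GeneralLinearGroup.map_apply, hext.cyc.fix_i]
  have hzu : Commute z (γ * (z ^ l)⁻¹) :=
    hc.mul_right ((Commute.refl z).pow_right l).inv_right
  have hZU : (Matrix.GeneralLinearGroup.map i z : GL (Fin 2) k')
        * Matrix.GeneralLinearGroup.map i (γ * (z ^ l)⁻¹)
      = Matrix.GeneralLinearGroup.map i (γ * (z ^ l)⁻¹)
        * Matrix.GeneralLinearGroup.map i z := by
    rw [← map_mul, ← map_mul, hzu.eq]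
  have hZU' : ((Matrix.GeneralLinearGroup.map i z : GL (Fin 2) k') : Matrix (Fin 2) (Fin 2) k')
        * ((Matrix.GeneralLinearGroup.map i (γ * (z ^ l)⁻¹) : GL (Fin 2) k') :
            Matrix (Fin 2) (Fin 2) k')
      = ((Matrix.GeneralLinearGroup.map i (γ * (z ^ l)⁻¹) : GL (Fin 2) k') :
            Matrix (Fin 2) (Fin 2) k')
        * ((Matrix.GeneralLinearGroup.map i z : GL (Fin 2) k') : Matrix (Fin 2) (Fin 2) k') := by
    rw [← Matrix.GeneralLinearGroup.coe_mul, ← Matrix.GeneralLinearGroup.coe_mul, hZU]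
  have hZx : Commute (Matrix.GeneralLinearGroup.map i z : GL (Fin 2) k') x := by
    apply Units.ext
    rw [Units.val_mul, Units.val_mul, hx, mul_add, add_mul, Matrix.mul_smul, Matrix.smul_mul,
      Matrix.mul_smul, Matrix.smul_mul, mul_one, one_mul, hZU']
  refine ⟨Matrix.GeneralLinearGroup.map i z * x, ?_⟩
  have hfin : twNorm s l (Matrix.GeneralLinearGroup.map i z * x)
      = Matrix.GeneralLinearGroup.map i γ := by
    have h1 : twNorm s l (Matrix.GeneralLinearGroup.map i z * x)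
        = (Matrix.GeneralLinearGroup.map i z) ^ l * twNorm s l x :=
      twN_mul_fixed (glAut s) _ x hZ hZx l
    rw [h1, hN, ← map_pow, ← map_mul]
    congr 1
    rw [← mul_assoc, hzl.eq, mul_assoc, mul_inv_cancel, mul_one]
  rw [hfin]

end CaseC

/-! ## The glue -/

/-- **T6.15c `NormCritC` from `NewtonC`, `QuadUnitNormC`, `Unr2C`.** -/
theorem normCrit_of (hNw : NewtonC) (hQ : QuadUnitNormC) (hU : Unr2C) : NormCritC := by
  intro k k' _ _ _ _ q l i s hk hk' hext hl γ hreg hdiv heig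
  by_cases he : HasEigen k γ
  · obtain ⟨t₁, ht₁⟩ := he
    exact normCrit_hyp hQ q l i s hk hk' hext hl γ hreg heig t₁ ht₁
  · by_cases h : HasRamUnif k γ ∨ l ≠ 2
    · exact normCrit_ell hNw hQ q l i s hk hk' hext hl γ hreg he hdiv h
    · rw [not_or, not_not] at h
      obtain ⟨hnr, rfl⟩ := h
      exact normCrit_unr2 hU q i s hk hk' hext γ hreg he hnr

/-- **T6.15 `FLVanishC` from the five open sub-leaves.** -/
theorem flVanish_of' (ha : SupportC) (hb : HypVanishC) (hNw : NewtonC) (hQ : QuadUnitNormC)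
    (hU : Unr2C) : FLVanishC :=
  flVanish_of ha hb (normCrit_of hNw hQ hU)



end Fermat.Agent.LT.T6.H159

end
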