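import Mathlib
import Fermat.Agent.LT.T6.Spec
import Fermat.Agent.LT.T6.H159.VanishSpec

/-!
# Row LT, tower T6, sub-leaf T6.15a `SupportC` (helper159)

The base change `f = b(φ)` of a spherical function is supported on the Cartan types `(a, b)`
with `l ∣ a + b`.  Proof: homogeneity of the Satake polynomials, extraction of the homogeneous
components of a Laurent polynomial identity, and linear independence of the Satake polynomials
of a fixed degree (order of vanishing at `x = 0`).
-/

set_option autoImplicit false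

noncomputable section

namespace Fermat.Agent.LT.T6.H159

open Fermat.Agent.LT.T6 Polynomial

/-! ## Homogeneity -/

theorem satPoly_zero' (q : ℕ) (x y : ℂ) : satPoly q x y 0 = 1 := by
  rw [satPoly]

theorem satPoly_one' (q : ℕ) (x y : ℂ) :
    satPoly q x y 1 = ((Real.sqrt q : ℝ) : ℂ) * (x + y) := by
  rw [satPoly]

theorem satPoly_two' (q : ℕ) (x y : ℂ) :
    satPoly q x y 2 = (((Real.sqrt q : ℝ) : ℂ) * (x + y)) ^ 2 - ((q : ℂ) + 1) * (x * y) := by
  rw [satPoly]

theorem satPoly_add_three (q : ℕ) (x y : ℂ) (n : ℕ) :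
    satPoly q x y (n + 3) = ((Real.sqrt q : ℝ) : ℂ) * (x + y) * satPoly q x y (n + 2)
      - (q : ℂ) * (x * y) * satPoly q x y (n + 1) := by
  rw [satPoly]

/-- A three-step induction principle adapted to the recursion of `satPoly`. -/
theorem satPoly_induction (P : ℕ → Prop) (h0 : P 0) (h1 : P 1) (h2 : P 2)
    (h3 : ∀ n, P (n + 1) → P (n + 2) → P (n + 3)) : ∀ n, P n := by
  have key : ∀ n, P n ∧ P (n + 1) ∧ P (n + 2) := by
    intro n
    induction n with
    | zero => exact ⟨h0, h1, h2⟩
    | succ n ih => exact ⟨ih.2.1, ih.2.2, h3 n ih.2.1 ih.2.2⟩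
  exact fun n => (key n).1

/-- `satPoly` is homogeneous of degree `n`. -/
theorem satPoly_homog (q : ℕ) (z x y : ℂ) (n : ℕ) :
    satPoly q (z * x) (z * y) n = z ^ n * satPoly q x y n := by
  induction n using satPoly_induction with
  | h0 => simp [satPoly_zero']
  | h1 => rw [satPoly_one', satPoly_one']; ring
  | h2 => rw [satPoly_two', satPoly_two']; ring
  | h3 n ih1 ih2 =>
    rw [satPoly_add_three, satPoly_add_three, ih1, ih2]
    ring

/-- `satPoly q 0 1 n = (√q)ⁿ`. -/
theorem satPoly_at_zero (q : ℕ) (n : ℕ) :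
    satPoly q 0 1 n = ((Real.sqrt q : ℝ) : ℂ) ^ n := by
  induction n using satPoly_induction with
  | h0 => simp [satPoly_zero']
  | h1 => rw [satPoly_one']; ring
  | h2 => rw [satPoly_two']; ring
  | h3 n ih1 ih2 =>
    rw [satPoly_add_three, ih2]
    ring

/-- `x ↦ satPoly q x 1 n` is continuous. -/
theorem continuous_satPoly (q : ℕ) (n : ℕ) : Continuous fun x : ℂ => satPoly q x 1 n := by
  induction n using satPoly_induction with
  | h0 => simp only [satPoly_zero']; exact continuous_const
  | h1 => simp only [satPoly_one']; fun_prop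
  | h2 => simp only [satPoly_two']; fun_prop
  | h3 n ih1 ih2 =>
    simp only [satPoly_add_three]
    fun_prop

/-- Homogeneity of the Satake transform of a dominant Cartan type. -/
theorem satake_homog (q : ℕ) (lam : ℤ × ℤ) (hlam : lam.2 ≤ lam.1) (z x y : ℂ) (hz : z ≠ 0) :
    satake q lam (z * x) (z * y) = z ^ (lam.1 + lam.2) * satake q lam x y := by
  unfold satake
  rw [satPoly_homog]
  have h1 : (z * x * (z * y)) ^ lam.2 = z ^ (2 * lam.2) * (x * y) ^ lam.2 := by
    have : z * x * (z * y) = z ^ (2 : ℤ) * (x * y) := by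
      rw [zpow_two]; ring
    rw [this, mul_zpow, ← zpow_mul]
  have h2 : (z ^ (lam.1 - lam.2).toNat : ℂ) = z ^ (lam.1 - lam.2) := by
    rw [← zpow_natCast, Int.toNat_of_nonneg (by omega)]
  rw [h1, h2]
  have h3 : z ^ (lam.1 + lam.2) = z ^ (2 * lam.2) * z ^ (lam.1 - lam.2) := by
    rw [← zpow_add₀ hz]
    congr 1
    ring
  rw [h3]
  ring

/-! ## Homogeneous components of a Laurent polynomial identity -/

/-- If two finite Laurent sums agree at all `z ≠ 0`, their homogeneous components agree. -/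
theorem laurent_component {ι κ : Type} (S : Finset ι) (S' : Finset κ) (a : ι → ℂ) (b : κ → ℂ)
    (e : ι → ℤ) (e' : κ → ℤ)
    (h : ∀ z : ℂ, z ≠ 0 → ∑ i ∈ S, a i * z ^ (e i) = ∑ j ∈ S', b j * z ^ (e' j)) (d : ℤ) :
    ∑ i ∈ S.filter (fun i => e i = d), a i = ∑ j ∈ S'.filter (fun j => e' j = d), b j := by
  classical
  -- a common shift making all exponents non-negative
  obtain ⟨M, hM, hM', hMd⟩ : ∃ M : ℤ, (∀ i ∈ S, 0 ≤ e i + M) ∧ (∀ j ∈ S', 0 ≤ e' j + M) ∧
      0 ≤ d + M := by
    refine ⟨∑ i ∈ S, |e i| + ∑ j ∈ S', |e' j| + |d|, fun i hi => ?_, fun j hj => ?_, ?_⟩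
    · have h1 : |e i| ≤ ∑ i ∈ S, |e i| :=
        Finset.single_le_sum (f := fun i => |e i|) (fun _ _ => abs_nonneg _) hi
      have h2 : 0 ≤ ∑ j ∈ S', |e' j| := Finset.sum_nonneg fun _ _ => abs_nonneg _
      have h3 := neg_abs_le (e i)
      have h4 := abs_nonneg d
      linarith
    · have h1 : |e' j| ≤ ∑ j ∈ S', |e' j| :=
        Finset.single_le_sum (f := fun j => |e' j|) (fun _ _ => abs_nonneg _) hj
      have h2 : 0 ≤ ∑ i ∈ S, |e i| := Finset.sum_nonneg fun _ _ => abs_nonneg _
      have h3 := neg_abs_le (e' j)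
      have h4 := abs_nonneg d
      linarith
    · have h2 : 0 ≤ ∑ i ∈ S, |e i| := Finset.sum_nonneg fun _ _ => abs_nonneg _
      have h2' : 0 ≤ ∑ j ∈ S', |e' j| := Finset.sum_nonneg fun _ _ => abs_nonneg _
      have h3 := neg_abs_le d
      linarith
  let P : ℂ[X] := ∑ i ∈ S, C (a i) * X ^ (e i + M).toNat
  let P' : ℂ[X] := ∑ j ∈ S', C (b j) * X ^ (e' j + M).toNat
  have hev : ∀ z : ℂ, z ≠ 0 → P.eval z = P'.eval z := by
    intro z hz
    have h1 : P.eval z = z ^ M * ∑ i ∈ S, a i * z ^ (e i) := by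
      simp only [P, eval_finsetSum, eval_mul, eval_C, eval_pow, eval_X, Finset.mul_sum]
      refine Finset.sum_congr rfl fun i hi => ?_
      rw [← zpow_natCast, Int.toNat_of_nonneg (hM i hi), zpow_add₀ hz]
      ring
    have h2 : P'.eval z = z ^ M * ∑ j ∈ S', b j * z ^ (e' j) := by
      simp only [P', eval_finsetSum, eval_mul, eval_C, eval_pow, eval_X, Finset.mul_sum]
      refine Finset.sum_congr rfl fun j hj => ?_
      rw [← zpow_natCast, Int.toNat_of_nonneg (hM' j hj), zpow_add₀ hz]
      ring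
    rw [h1, h2, h z hz]
  have hPP : P = P' := by
    have hinf : Set.Infinite {z : ℂ | (P - P').IsRoot z} := by
      have hsub : {z : ℂ | z ≠ 0} ⊆ {z : ℂ | (P - P').IsRoot z} := by
        intro z hz
        simp only [Set.mem_ofPred_eq, IsRoot, eval_sub, sub_eq_zero]
        exact hev z hz
      refine Set.Infinite.mono hsub ?_
      have : {z : ℂ | z ≠ 0} = ({0} : Set ℂ)ᶜ := by
        ext z; simp
      rw [this]
      exact (Set.finite_singleton (0 : ℂ)).infinite_compl
    exact sub_eq_zero.mp (eq_zero_of_infinite_isRoot _ hinf)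
  have hc := congrArg (fun R : ℂ[X] => R.coeff (d + M).toNat) hPP
  simp only [P, P', finsetSum_coeff, coeff_C_mul, coeff_X_pow] at hc
  rw [Finset.sum_filter, Finset.sum_filter]
  convert hc using 1
  · refine Finset.sum_congr rfl fun i hi => ?_
    have hiff : ((d + M).toNat = (e i + M).toNat) ↔ e i = d := by
      constructor
      · intro h1
        have h2 : ((d + M).toNat : ℤ) = ((e i + M).toNat : ℤ) := by rw [h1]
        rw [Int.toNat_of_nonneg hMd, Int.toNat_of_nonneg (hM i hi)] at h2
        omega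
      · intro h1
        rw [h1]
    by_cases h1 : e i = d
    · rw [if_pos h1, if_pos (hiff.mpr h1), mul_one]
    · rw [if_neg h1, if_neg (fun h2 => h1 (hiff.mp h2)), mul_zero]
  · refine Finset.sum_congr rfl fun j hj => ?_
    have hiff : ((d + M).toNat = (e' j + M).toNat) ↔ e' j = d := by
      constructor
      · intro h1
        have h2 : ((d + M).toNat : ℤ) = ((e' j + M).toNat : ℤ) := by rw [h1]
        rw [Int.toNat_of_nonneg hMd, Int.toNat_of_nonneg (hM' j hj)] at h2
        omega
      · intro h1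
        rw [h1]
    by_cases h1 : e' j = d
    · rw [if_pos h1, if_pos (hiff.mpr h1), mul_one]
    · rw [if_neg h1, if_neg (fun h2 => h1 (hiff.mp h2)), mul_zero]

/-! ## The homogeneous components of the base change identity -/

/-- The component of degree `d`, `l ∤ d`, of `f^∨` vanishes. -/
theorem bc_component (l q : ℕ) (φ f : (ℤ × ℤ) →₀ ℂ) (hφ : IsDominant φ)
    (hf : IsDominant f) (hbc : IsBC l q φ f) (d : ℤ) (hd : ¬ (l : ℤ) ∣ d) (x y : ℂ)
    (hx : x ≠ 0) (hy : y ≠ 0) :
    ∑ lam ∈ f.support.filter (fun lam => lam.1 + lam.2 = d), f lam * satake q lam x y = 0 := by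
  have h := laurent_component f.support φ.support (fun lam => f lam * satake q lam x y)
    (fun mu => φ mu * satake (q ^ l) mu (x ^ l) (y ^ l)) (fun lam => lam.1 + lam.2)
    (fun mu => (l : ℤ) * (mu.1 + mu.2)) ?_ d
  · rw [h]
    apply Finset.sum_eq_zero
    intro mu hmu
    rw [Finset.mem_filter] at hmu
    exact absurd ⟨_, hmu.2.symm⟩ hd
  · intro z hz
    have hz' := hbc (z * x) (z * y) (mul_ne_zero hz hx) (mul_ne_zero hz hy)
    simp only [Finsupp.sum] at hz'
    have hL : ∑ lam ∈ f.support, f lam * satake q lam (z * x) (z * y)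
        = ∑ lam ∈ f.support, f lam * satake q lam x y * z ^ (lam.1 + lam.2) := by
      refine Finset.sum_congr rfl fun lam hlam => ?_
      rw [satake_homog q lam (hf lam hlam) z x y hz]
      ring
    have hR : ∑ mu ∈ φ.support, φ mu * satake (q ^ l) mu ((z * x) ^ l) ((z * y) ^ l)
        = ∑ mu ∈ φ.support, φ mu * satake (q ^ l) mu (x ^ l) (y ^ l)
            * z ^ ((l : ℤ) * (mu.1 + mu.2)) := by
      refine Finset.sum_congr rfl fun mu hmu => ?_
      rw [mul_pow, mul_pow, satake_homog (q ^ l) mu (hφ mu hmu) (z ^ l) (x ^ l) (y ^ l)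
        (pow_ne_zero _ hz), zpow_mul, zpow_natCast]
      ring
    rw [← hL, ← hR]
    exact hz'

/-! ## The support -/

/-- **T6.15a `SupportC`.** -/
theorem supportC : SupportC := by
  intro l q _ hq φ f hφ hf hbc lam hlam
  by_contra hnd
  classical
  let S : Finset (ℤ × ℤ) := f.support.filter (fun mu => mu.1 + mu.2 = lam.1 + lam.2)
  have hSne : S.Nonempty := ⟨lam, Finset.mem_filter.mpr ⟨hlam, rfl⟩⟩
  obtain ⟨lam0, hlam0, hmin⟩ := S.exists_min_image (fun mu => mu.2) hSne
  let g : ℂ → ℂ := fun x =>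
    ∑ mu ∈ S, f mu * (x ^ (mu.2 - lam0.2).toNat * satPoly q x 1 (mu.1 - mu.2).toNat)
  have hg : Continuous g := by
    apply continuous_finsetSum
    intro mu _
    exact continuous_const.mul ((continuous_pow _).mul (continuous_satPoly q _))
  have hzero : ∀ x : ℂ, x ≠ 0 → g x = 0 := by
    intro x hx
    have h := bc_component l q φ f hφ hf hbc (lam.1 + lam.2) hnd x 1 hx one_ne_zero
    have hgx : g x = x ^ (-lam0.2) * ∑ mu ∈ S, f mu * satake q mu x 1 := by
      rw [Finset.mul_sum]
      refine Finset.sum_congr rfl fun mu hmu => ?_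
      unfold satake
      have h1 : (x ^ (mu.2 - lam0.2).toNat : ℂ) = x ^ (mu.2 - lam0.2) := by
        rw [← zpow_natCast, Int.toNat_of_nonneg (sub_nonneg.mpr (hmin mu hmu))]
      rw [h1, mul_one, sub_eq_add_neg, zpow_add₀ hx]
      ring
    rw [hgx, h, mul_zero]
  have hg0 : g 0 = 0 := by
    have hfun : g = fun _ => (0 : ℂ) :=
      Continuous.ext_on (dense_compl_singleton (0 : ℂ)) hg continuous_const
        (fun x hx => hzero x hx)
    exact congrFun hfun 0
  have hval : g 0 = f lam0 * ((Real.sqrt q : ℝ) : ℂ) ^ (lam0.1 - lam0.2).toNat := by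
    show ∑ mu ∈ S, f mu * ((0 : ℂ) ^ (mu.2 - lam0.2).toNat
      * satPoly q 0 1 (mu.1 - mu.2).toNat) = _
    rw [Finset.sum_eq_single lam0]
    · rw [sub_self, Int.toNat_zero, pow_zero, one_mul, satPoly_at_zero]
    · intro mu hmu hne
      have h3 := (Finset.mem_filter.mp hmu).2
      have h4 := (Finset.mem_filter.mp hlam0).2
      have h2 : mu.2 ≠ lam0.2 := by
        intro h
        apply hne
        apply Prod.ext
        · omega
        · exact h
      have h5 : (mu.2 - lam0.2).toNat ≠ 0 := by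
        have := hmin mu hmu
        omega
      rw [zero_pow h5, zero_mul, mul_zero]
    · intro h
      exact absurd hlam0 h
  have hsq : ((Real.sqrt q : ℝ) : ℂ) ≠ 0 := by
    have h1 : (0 : ℝ) < Real.sqrt q := Real.sqrt_pos.mpr (by exact_mod_cast (by omega : 0 < q))
    exact_mod_cast h1.ne'
  rw [hval] at hg0
  have hf0 : f lam0 = 0 := by
    rcases mul_eq_zero.mp hg0 with h | h
    · exact h
    · exact absurd (pow_eq_zero_iff'.mp h).1 hsq
  exact (Finsupp.mem_support_iff.mp (Finset.mem_filter.mp hlam0).1) hf0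

end Fermat.Agent.LT.T6.H159

end
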