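import Mathlib
import Fermat.Agent.LT.T6.Spec
import Fermat.Agent.LT.T6.H159.VanishSpec
import Fermat.Agent.LT.T6.H159.NormSpec
import Fermat.Agent.LT.T6.H159.Support
import Fermat.Agent.LT.T6.H159.NormGlue

/-!
# Row LT, tower T6, leaf T6.15 `FLVanishC` (owner helper159): current state of the assembly

`FLVanishC` is reduced to the four open sub-leaves `HypVanishC` (T6.15b), `NewtonC` (T6.15c2),
`QuadUnitNormC` (T6.15c3), `Unr2C` (T6.15c4); `SupportC` (T6.15a) and the glue are proved.
-/

set_option autoImplicit false

noncomputable section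

namespace Fermat.Agent.LT.T6.H159

open Fermat.Agent.LT.T6

/-- **T6.15 `FLVanishC`** from the four open sub-leaves. -/
theorem flVanish_of_open (hb : HypVanishC) (hNw : NewtonC) (hQ : QuadUnitNormC) (hU : Unr2C) :
    FLVanishC :=
  flVanish_of supportC hb (normCrit_of hNw hQ hU)

end Fermat.Agent.LT.T6.H159

end
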