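import Mathlib
import Fermat.Agent.LT.T6.Spec
import Fermat.Agent.LT.T6.H159.VanishSpec
import Fermat.Agent.LT.T6.H159.NormSpec
import Fermat.Agent.LT.T6.H159.Support
import Fermat.Agent.LT.T6.H159.NormGlue
import Fermat.Agent.LT.T6.H159.Vanish
import Fermat.Agent.LT.T6.H98.NewtonC
import Fermat.Agent.LT.T6.H98.Unr2
import Fermat.Agent.LT.T6.H288.HypSpec
import Fermat.Agent.LT.T6.H848.HypVanish

/-!
# Row LT, tower T6, leaf T6.15 `FLVanishC` (owner helper159): the assembly

Closed sub-leaves (byte-identical vendored files):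

* T6.15a `SupportC`: `H159.supportC` (helper159, `H159/Support.lean`);
* T6.15b `HypVanishC`: `H848.hypVanish_of848 : H288.SatClosedC → H288.OrbSumDiagC → HypVanishC`
  (helper848, `H848/HypVanish.lean`; the two premises are sub-leaves of T6.12, helper288);
* T6.15c glue: `H159.normCrit_of` (helper159, `H159/NormGlue.lean`);
* T6.15c2 `NewtonC`: `H98.newtonC98` (helper98; second copy `H129.newtonC129`, helper129);
* T6.15c4 `Unr2C`: `H98.unr2C98` (helper98).

Open: T6.15c3 `QuadUnitNormC` (helper313) and the two T6.12 sub-leaves of helper288.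
-/

set_option autoImplicit false

noncomputable section

namespace Fermat.Agent.LT.T6.H159

open Fermat.Agent.LT.T6

/-- **T6.15c `NormCritC`** from `QuadUnitNormC` alone. -/
theorem normCrit_of_quad (hQ : QuadUnitNormC) : NormCritC :=
  normCrit_of H98.newtonC98 hQ H98.unr2C98

/-- **T6.15 `FLVanishC`** from `QuadUnitNormC` and the two sub-leaves of T6.12. -/
theorem flVanish_of_quad (hS : H288.SatClosedC) (hO : H288.OrbSumDiagC) (hQ : QuadUnitNormC) :
    FLVanishC :=
  flVanish_of supportC (H848.hypVanish_of848 hS hO) (normCrit_of_quad hQ)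

end Fermat.Agent.LT.T6.H159

end
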